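/-
Programme JAC (S25), brick Q0 (helper32): tensor products of domains over an algebraically
closed field are domains.  Mathlib only.

Main results (namespace `Fermat.Agent.Jac.GeomAlgClosed32`):
* `exists_algHom_apply_ne_zero` : a nonzero element of a reduced finite type algebra over an
  algebraically closed field `k` is nonzero at some `k`-point.
* `isDomain_tensorProduct` : `A ⊗[k] B` is a domain if `A`, `B` are domains over an
  algebraically closed field `k`.
-/
import Mathlib

set_option autoImplicit false

open TensorProduct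

namespace Fermat.Agent.Jac.GeomAlgClosed32

section PointSeparation

variable {k : Type*} [Field k] [IsAlgClosed k]

/-- The residue field at a maximal ideal of a finite type algebra over an algebraically closed
field `k` is `k`: there is a `k`-point with the given maximal ideal as kernel. -/
theorem exists_algHom_ker_eq {A : Type*} [CommRing A] [Algebra k A] [Algebra.FiniteType k A]
    (m : Ideal A) [hm : m.IsMaximal] : ∃ φ : A →ₐ[k] k, RingHom.ker φ.toRingHom = m := by
  let _ : Field (A ⧸ m) := Ideal.Quotient.field m
  have : Algebra.FiniteType k (A ⧸ m) :=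
    Algebra.FiniteType.of_surjective (Ideal.Quotient.mkₐ k m) (Ideal.Quotient.mkₐ_surjective k m)
  have : Module.Finite k (A ⧸ m) := finite_of_finite_type_of_isJacobsonRing k (A ⧸ m)
  have : Algebra.IsIntegral k (A ⧸ m) := Algebra.IsIntegral.of_finite k (A ⧸ m)
  have hbij : Function.Bijective (algebraMap k (A ⧸ m)) :=
    IsAlgClosed.algebraMap_bijective_of_isIntegral
  let e : k ≃ₐ[k] (A ⧸ m) := AlgEquiv.ofBijective (Algebra.ofId k (A ⧸ m)) hbij
  refine ⟨(e.symm : (A ⧸ m) →ₐ[k] k).comp (Ideal.Quotient.mkₐ k m), ?_⟩
  ext a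
  simp only [RingHom.mem_ker, AlgHom.toRingHom_eq_coe, RingHom.coe_coe, AlgHom.coe_comp,
    AlgEquiv.coe_toAlgHom, Function.comp_apply, Ideal.Quotient.mkₐ_eq_mk]
  rw [EmbeddingLike.map_eq_zero_iff, Ideal.Quotient.eq_zero_iff_mem]

/-- Over an algebraically closed field `k`, the `k`-points of a reduced finite type `k`-algebra
separate elements from zero. -/
theorem exists_algHom_apply_ne_zero {A : Type*} [CommRing A] [Algebra k A]
    [Algebra.FiniteType k A] [IsReduced A] {a : A} (ha : a ≠ 0) :
    ∃ φ : A →ₐ[k] k, φ a ≠ 0 := by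
  have : IsJacobsonRing A := isJacobsonRing_of_finiteType (A := k)
  have hjac : (⊥ : Ideal A).jacobson = ⊥ := IsJacobsonRing.out inferInstance Ideal.isRadical_bot
  have hna : a ∉ (⊥ : Ideal A).jacobson := by
    rw [hjac]
    simpa using ha
  rw [Ideal.jacobson, Ideal.mem_sInf] at hna
  push Not at hna
  obtain ⟨m, ⟨-, hm⟩, ham⟩ := hna
  obtain ⟨φ, hφ⟩ := exists_algHom_ker_eq (k := k) m
  refine ⟨φ, fun h => ham ?_⟩
  rw [← hφ]
  exact h

end PointSeparation

section Evaluation

variable {k : Type*} [Field k]
variable {C A : Type*} [CommRing C] [CommRing A] [Algebra k C] [Algebra k A]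

/-- Evaluation of the left factor at a `k`-point `φ : C →ₐ[k] k`: the `k`-algebra map
`C ⊗[k] A → A`, `c ⊗ a ↦ φ c • a`. -/
noncomputable def evalLeft (φ : C →ₐ[k] k) : C ⊗[k] A →ₐ[k] A :=
  (Algebra.TensorProduct.lid k A).toAlgHom.comp (Algebra.TensorProduct.map φ (AlgHom.id k A))

@[simp]
theorem evalLeft_tmul (φ : C →ₐ[k] k) (c : C) (a : A) :
    evalLeft φ (c ⊗ₜ[k] a) = φ c • a := by
  simp [evalLeft]

/-- Coordinates of `evalLeft φ x` in a `k`-basis `b` of `A` are the images under `φ` of the
coordinates of `x` in the induced `C`-basis of `C ⊗[k] A`. -/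
theorem repr_evalLeft {ι : Type*} (b : Module.Basis ι k A) (φ : C →ₐ[k] k) (x : C ⊗[k] A)
    (i : ι) :
    b.repr (evalLeft φ x) i = φ ((Algebra.TensorProduct.basis C b).repr x i) := by
  induction x with
  | zero => simp
  | tmul c a =>
    rw [evalLeft_tmul, map_smul, Finsupp.smul_apply, Algebra.TensorProduct.basis_repr_tmul,
      Finsupp.smul_apply, Finsupp.mapRange_apply, smul_eq_mul, smul_eq_mul, map_mul,
      AlgHom.commutes]
    rfl
  | add x y hx hy => simp [hx, hy]

end Evaluation

section Domain

variable {k : Type*} [Field k] [IsAlgClosed k]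

/-- Special case: `C ⊗[k] A` has no zero divisors if `C` is a finite type domain and `A` an
arbitrary domain over the algebraically closed field `k`. -/
theorem noZeroDivisors_tensorProduct_of_finiteType {C A : Type*} [CommRing C] [CommRing A]
    [Algebra k C] [Algebra k A] [Algebra.FiniteType k C] [IsDomain C] [IsDomain A] :
    NoZeroDivisors (C ⊗[k] A) := by
  refine ⟨fun {x y} hxy => ?_⟩
  let b : Module.Basis _ k A := Module.Free.chooseBasis k A
  let β := Algebra.TensorProduct.basis C b
  -- for every `k`-point, one of the two specialisations vanishes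
  have key : ∀ φ : C →ₐ[k] k, ∀ i j, φ (β.repr x i * β.repr y j) = 0 := by
    intro φ i j
    have h0 : evalLeft φ x * evalLeft φ y = 0 := by rw [← map_mul, hxy, map_zero]
    rcases mul_eq_zero.mp h0 with h | h
    · have := repr_evalLeft b φ x i
      rw [h] at this
      rw [map_mul, ← this]
      simp
    · have := repr_evalLeft b φ y j
      rw [h] at this
      rw [map_mul, ← this]
      simp
  have hprod : ∀ i j, β.repr x i * β.repr y j = 0 := by
    intro i j
    by_contra hne
    obtain ⟨φ, hφ⟩ := exists_algHom_apply_ne_zero (k := k) hne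
    exact hφ (key φ i j)
  by_cases hx : x = 0
  · exact Or.inl hx
  · right
    have hx' : β.repr x ≠ 0 := fun h => hx (by simpa using h)
    obtain ⟨i, hi⟩ := Finsupp.ne_iff.mp hx'
    have hy : β.repr y = 0 := by
      ext j
      rcases mul_eq_zero.mp (hprod i j) with h | h
      · exact absurd h (by simpa using hi)
      · simpa using h
    simpa using hy

theorem map_val_map_inclusion {R A B : Type*} [CommRing R] [CommRing A] [CommRing B]
    [Algebra R A] [Algebra R B] {C₁ C : Subalgebra R B} (h : C₁ ≤ C) (z : A ⊗[R] C₁) :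
    Algebra.TensorProduct.map (AlgHom.id A A) C.val
        (Algebra.TensorProduct.map (AlgHom.id A A) (Subalgebra.inclusion h) z) =
      Algebra.TensorProduct.map (AlgHom.id A A) C₁.val z := by
  induction z with
  | zero => simp
  | tmul a c => rfl
  | add u v hu hv => simp only [map_add, hu, hv]

/-- Two elements of `A ⊗[k] B` lie in the image of `A ⊗[k] C` for a common finitely generated
subalgebra `C` of `B`. -/
theorem exists_fg_and_mem_baseChange_pair {R A B : Type*} [CommRing R] [CommRing A] [CommRing B]
    [Algebra R A] [Algebra R B] (x y : A ⊗[R] B) :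
    ∃ C : Subalgebra R B, C.FG ∧
      ∃ x' y' : A ⊗[R] C, Algebra.TensorProduct.map (AlgHom.id A A) C.val x' = x ∧
        Algebra.TensorProduct.map (AlgHom.id A A) C.val y' = y := by
  obtain ⟨C₁, hC₁, x₁, hx₁⟩ := exists_fg_and_mem_baseChange x
  obtain ⟨C₂, hC₂, y₂, hy₂⟩ := exists_fg_and_mem_baseChange y
  refine ⟨C₁ ⊔ C₂, hC₁.sup hC₂,
    Algebra.TensorProduct.map (AlgHom.id A A) (Subalgebra.inclusion le_sup_left) x₁,
    Algebra.TensorProduct.map (AlgHom.id A A) (Subalgebra.inclusion le_sup_right) y₂, ?_, ?_⟩
  · rw [map_val_map_inclusion]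
    exact hx₁
  · rw [map_val_map_inclusion]
    exact hy₂

/-- **Tensor products of domains over an algebraically closed field are domains.** -/
theorem isDomain_tensorProduct {A B : Type*} [CommRing A] [CommRing B]
    [Algebra k A] [Algebra k B] [IsDomain A] [IsDomain B] : IsDomain (A ⊗[k] B) := by
  have hnt : Nontrivial (A ⊗[k] B) :=
    Algebra.TensorProduct.nontrivial_of_algebraMap_injective_of_flat_left (R := k) A B
      (FaithfulSMul.algebraMap_injective k B)
  have hnzd : NoZeroDivisors (A ⊗[k] B) := by
    refine ⟨fun {x y} hxy => ?_⟩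
    obtain ⟨C, hC, x', y', rfl, rfl⟩ := exists_fg_and_mem_baseChange_pair x y
    have : Algebra.FiniteType k C := (Subalgebra.fg_iff_finiteType C).mp hC
    have hinj : Function.Injective (Algebra.TensorProduct.map (AlgHom.id A A) C.val) :=
      Module.Flat.lTensor_preserves_injective_linearMap (M := A) C.val.toLinearMap
        Subtype.val_injective
    have h0 : x' * y' = 0 := hinj (by rw [map_mul, hxy, map_zero])
    -- transport to `C ⊗[k] A`
    have hnzd' : NoZeroDivisors (C ⊗[k] A) := noZeroDivisors_tensorProduct_of_finiteType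
    let e : A ⊗[k] C ≃ₐ[k] C ⊗[k] A := Algebra.TensorProduct.comm k A C
    have h1 : e x' * e y' = 0 := by rw [← map_mul, h0, map_zero]
    rcases mul_eq_zero.mp h1 with h | h
    · left
      rw [EmbeddingLike.map_eq_zero_iff.mp h, map_zero]
    · right
      rw [EmbeddingLike.map_eq_zero_iff.mp h, map_zero]
  exact NoZeroDivisors.to_isDomain _

end Domain

end Fermat.Agent.Jac.GeomAlgClosed32
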