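/-
Programme JAC (S25), brick Q0 (helper32): over an algebraically closed field, integral schemes
are geometrically integral and connected schemes are geometrically connected.  Mathlib only.
-/
import Mathlib
import Fermat.Agent.Jac.GeomAlgClosed32.TensorDomain

set_option autoImplicit false

universe u

open CategoryTheory Limits AlgebraicGeometry TensorProduct

namespace Fermat.Agent.Jac.GeomAlgClosed32

/-- Integrality of schemes is invariant under isomorphisms. -/
theorem isClosedUnderIsomorphisms_isIntegral :
    ObjectProperty.IsClosedUnderIsomorphisms (IsIntegral : ObjectProperty Scheme.{u}) :=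
  ⟨fun e h => @IsIntegral.of_isIso _ _ h e.hom _⟩

attribute [local instance] isClosedUnderIsomorphisms_isIntegral

variable {k : Type u} [Field k] [IsAlgClosed k]

/-- For a domain `A` over an algebraically closed field `k`, the structure morphism
`Spec A ⟶ Spec k` is geometrically integral. -/
theorem geometricallyIntegral_specMap (A : Type u) [CommRing A] [IsDomain A] [Algebra k A] :
    GeometricallyIntegral (Spec.map (CommRingCat.ofHom (algebraMap k A))) := by
  rw [GeometricallyIntegral.eq_geometrically,
    geometrically_iff_of_commRing_of_isClosedUnderIsomorphisms]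
  intro K _ _
  have : IsDomain (A ⊗[k] K) := isDomain_tensorProduct
  have : IsIntegral (Spec (CommRingCat.of (A ⊗[k] K))) := inferInstance
  exact IsIntegral.of_isIso (pullbackSpecIso k A K).inv

/-- An affine integral scheme over an algebraically closed field is geometrically integral. -/
theorem geometricallyIntegral_of_isAffine {Y : Scheme.{u}} [IsAffine Y] [IsIntegral Y]
    (f : Y ⟶ Spec (CommRingCat.of k)) : GeometricallyIntegral f := by
  have : MorphismProperty.RespectsIso (@GeometricallyIntegral.{u} : MorphismProperty Scheme.{u}) :=
    MorphismProperty.IsStableUnderBaseChange.respectsIso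
  rw [← MorphismProperty.cancel_left_of_respectsIso
    (@GeometricallyIntegral.{u} : MorphismProperty Scheme.{u}) Y.isoSpec.inv f]
  obtain ⟨φ, hφ⟩ := Spec.map_surjective (Y.isoSpec.inv ≫ f)
  rw [← hφ]
  algebraize [φ.hom]
  have : IsDomain Γ(Y, ⊤) := inferInstance
  exact geometricallyIntegral_specMap Γ(Y, ⊤)

/-- A cover of a scheme by nonempty affine schemes. -/
noncomputable def nonemptyAffineCover (X : Scheme.{u}) : X.OpenCover :=
  Scheme.Cover.mkOfCovers X (fun x => X.affineCover.X (X.affineCover.idx x))
    (fun x => X.affineCover.f (X.affineCover.idx x)) (fun x => ⟨x, X.affineCover.covers x⟩)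

instance nonemptyAffineCover_isAffine (X : Scheme.{u}) (x : (nonemptyAffineCover X).I₀) :
    IsAffine ((nonemptyAffineCover X).X x) :=
  inferInstanceAs (IsAffine (X.affineCover.X (X.affineCover.idx x)))

instance nonemptyAffineCover_nonempty (X : Scheme.{u}) (x : (nonemptyAffineCover X).I₀) :
    Nonempty ((nonemptyAffineCover X).X x) := by
  obtain ⟨y, -⟩ := X.affineCover.covers x
  exact ⟨y⟩

instance nonemptyAffineCover_isIntegral (X : Scheme.{u}) [IsIntegral X]
    (x : (nonemptyAffineCover X).I₀) : IsIntegral ((nonemptyAffineCover X).X x) :=
  isIntegral_of_isOpenImmersion ((nonemptyAffineCover X).f x)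

/-- **Integral schemes over an algebraically closed field are geometrically integral.** -/
theorem geometricallyIntegral_of_isAlgClosed {X : Scheme.{u}} [IsIntegral X]
    (f : X ⟶ Spec (CommRingCat.of k)) : GeometricallyIntegral f := by
  rw [GeometricallyIntegral.eq_geometrically,
    geometrically_iff_of_commRing_of_isClosedUnderIsomorphisms]
  intro K _ _
  let g : Spec (CommRingCat.of K) ⟶ Spec (CommRingCat.of k) :=
    Spec.map (CommRingCat.ofHom (algebraMap k K))
  have hg : GeometricallyIntegral g := geometricallyIntegral_specMap K
  have : IrreducibleSpace ↥(pullback f g) := inferInstance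
  -- reducedness, on an open cover by base changes of nonempty affine opens
  have hred : IsReduced (pullback f g) := by
    refine @IsReduced.of_openCover _
      (Scheme.Pullback.openCoverOfLeft (nonemptyAffineCover X) f g)
      (fun (x : (nonemptyAffineCover X).I₀) => ?_)
    have hgi : GeometricallyIntegral ((nonemptyAffineCover X).f x ≫ f) :=
      geometricallyIntegral_of_isAffine _
    have : IsIntegral (pullback ((nonemptyAffineCover X).f x ≫ f) g) :=
      pullback_of_geometrically hgi.geometrically_isIntegral K g
    change IsReduced (pullback ((nonemptyAffineCover X).f x ≫ f) g)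
    infer_instance
  exact isIntegral_of_irreducibleSpace_of_isReduced _

/-- Irreducible schemes over an algebraically closed field are geometrically irreducible. -/
theorem geometricallyIrreducible_of_isAlgClosed {X : Scheme.{u}} [IrreducibleSpace X]
    (f : X ⟶ Spec (CommRingCat.of k)) : GeometricallyIrreducible f := by
  rw [GeometricallyIrreducible.eq_geometrically,
    geometrically_iff_of_commRing_of_isClosedUnderIsomorphisms]
  intro K _ _
  have hg : GeometricallyIntegral (Spec.map (CommRingCat.ofHom (algebraMap k K))) :=
    geometricallyIntegral_specMap K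
  infer_instance

/-- A field extension of an algebraically closed field is geometrically connected. -/
theorem geometricallyConnected_specMap (K : Type u) [Field K] [Algebra k K] :
    GeometricallyConnected (Spec.map (CommRingCat.ofHom (algebraMap k K))) := by
  rw [GeometricallyConnected.eq_geometrically,
    geometrically_iff_of_commRing_of_isClosedUnderIsomorphisms]
  intro L _ _
  have hg : GeometricallyIntegral (Spec.map (CommRingCat.ofHom (algebraMap k K))) :=
    geometricallyIntegral_specMap K
  have : IsIntegral (pullback (Spec.map (CommRingCat.ofHom (algebraMap k K)))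
      (Spec.map (CommRingCat.ofHom (algebraMap k L)))) :=
    pullback_of_geometrically hg.geometrically_isIntegral L _
  infer_instance

/-- **Connected schemes over an algebraically closed field are geometrically connected.** -/
theorem geometricallyConnected_of_isAlgClosed {X : Scheme.{u}} [ConnectedSpace X]
    (f : X ⟶ Spec (CommRingCat.of k)) : GeometricallyConnected f := by
  rw [GeometricallyConnected.eq_geometrically,
    geometrically_iff_of_commRing_of_isClosedUnderIsomorphisms]
  intro K _ _
  have hg : GeometricallyConnected (Spec.map (CommRingCat.ofHom (algebraMap k K))) :=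
    geometricallyConnected_specMap K
  infer_instance

/-- The fibre product over an algebraically closed field of two affine integral schemes is
integral. -/
theorem isIntegral_pullback_of_isAffine {Y Y' : Scheme.{u}} [IsAffine Y] [IsIntegral Y]
    [IsAffine Y'] [IsIntegral Y'] (f : Y ⟶ Spec (CommRingCat.of k))
    (f' : Y' ⟶ Spec (CommRingCat.of k)) : IsIntegral (pullback f f') := by
  obtain ⟨φ, hφ⟩ := Spec.map_surjective (Y.isoSpec.inv ≫ f)
  obtain ⟨φ', hφ'⟩ := Spec.map_surjective (Y'.isoSpec.inv ≫ f')
  algebraize [φ.hom, φ'.hom]
  have : IsDomain Γ(Y, ⊤) := inferInstance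
  have : IsDomain Γ(Y', ⊤) := inferInstance
  have : IsDomain (Γ(Y, ⊤) ⊗[k] Γ(Y', ⊤)) := isDomain_tensorProduct
  have h1 : IsIntegral (pullback (Spec.map (CommRingCat.ofHom (algebraMap k Γ(Y, ⊤))))
      (Spec.map (CommRingCat.ofHom (algebraMap k Γ(Y', ⊤))))) :=
    IsIntegral.of_isIso (pullbackSpecIso k Γ(Y, ⊤) Γ(Y', ⊤)).inv
  have h2 : IsIntegral (pullback (Y.isoSpec.inv ≫ f) (Y'.isoSpec.inv ≫ f')) := by
    rw [← hφ, ← hφ']
    exact h1
  exact IsIntegral.of_isIso
    (pullback.map (Y.isoSpec.inv ≫ f) (Y'.isoSpec.inv ≫ f') f f' Y.isoSpec.inv Y'.isoSpec.inv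
      (𝟙 _) (by simp) (by simp))

/-- **The fibre product over an algebraically closed field of two integral schemes is
integral.** -/
theorem isIntegral_pullback_of_isAlgClosed {X Y : Scheme.{u}} [IsIntegral X] [IsIntegral Y]
    (f : X ⟶ Spec (CommRingCat.of k)) (g : Y ⟶ Spec (CommRingCat.of k)) :
    IsIntegral (pullback f g) := by
  have hg : GeometricallyIrreducible g := geometricallyIrreducible_of_isAlgClosed g
  have : IrreducibleSpace ↥(pullback f g) := inferInstance
  have hred : IsReduced (pullback f g) := by
    refine @IsReduced.of_openCover _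
      (Scheme.Pullback.openCoverOfLeftRight (nonemptyAffineCover X) (nonemptyAffineCover Y) f g)
      (fun (ij : (nonemptyAffineCover X).I₀ × (nonemptyAffineCover Y).I₀) => ?_)
    have : IsIntegral (pullback ((nonemptyAffineCover X).f ij.1 ≫ f)
        ((nonemptyAffineCover Y).f ij.2 ≫ g)) := isIntegral_pullback_of_isAffine _ _
    change IsReduced (pullback ((nonemptyAffineCover X).f ij.1 ≫ f)
        ((nonemptyAffineCover Y).f ij.2 ≫ g))
    infer_instance
  exact isIntegral_of_irreducibleSpace_of_isReduced _

/-- The fibre product over an algebraically closed field of two connected schemes is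
connected. -/
theorem connectedSpace_pullback_of_isAlgClosed {X Y : Scheme.{u}} [ConnectedSpace X]
    [ConnectedSpace Y] (f : X ⟶ Spec (CommRingCat.of k)) (g : Y ⟶ Spec (CommRingCat.of k)) :
    ConnectedSpace ↥(pullback f g) := by
  have hg : GeometricallyConnected g := geometricallyConnected_of_isAlgClosed g
  infer_instance

end Fermat.Agent.Jac.GeomAlgClosed32
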